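import Fermat.Agent.Ribet.Spec

/-!
# RIBET piece G1a (helper164): `FreyModelAtPStatement`

The integral Frey curve `P.freyCurveInt` is an integral model of `P.freyCurve`, has nonzero
discriminant, is semistable at `p` (in fact at every prime: `c₄ = A² + AB + B²`,
`2⁸ Δ = (ABC)²` with `A = aᵖ`, `B = bᵖ`, `C = cᵖ` pairwise coprime) and is peu ramifié at `p`
(`v_p(Δ) = 2p · v_p(abc)`).  The hypothesis `p ∣ abc` is not needed.
-/

set_option autoImplicit false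

namespace Fermat.Agent.Ribet.H164

open WeierstrassCurve

variable (P : FreyPackage)

lemma g1a_four_dvd : (4 : ℤ) ∣ P.b ^ P.p - 1 - P.a ^ P.p := by
  have hp := P.hp5
  have hb : (2 : ℤ) ∣ P.b := (ZMod.intCast_zmod_eq_zero_iff_dvd P.b 2).1 P.hb2
  have hb4 : (4 : ℤ) ∣ P.b ^ P.p := by
    obtain ⟨k, hk⟩ := hb
    obtain ⟨j, hj⟩ : ∃ j, P.p = j + 2 := ⟨P.p - 2, by omega⟩
    have : P.b ^ P.p = 4 * (2 ^ j * k ^ P.p) := by
      rw [hk, hj]
      ring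
    exact ⟨_, this⟩
  have ha : ((P.a ^ P.p : ℤ) : ZMod 4) = 3 := by
    push_cast
    rw [P.ha4]
    obtain ⟨m, hm⟩ := P.hp_odd
    rw [hm, pow_succ, pow_mul]
    have : (3 : ZMod 4) ^ 2 = 1 := by decide
    rw [this, one_pow, one_mul]
  have hb' : ((P.b ^ P.p : ℤ) : ZMod 4) = 0 :=
    (ZMod.intCast_zmod_eq_zero_iff_dvd _ 4).2 hb4
  apply (ZMod.intCast_zmod_eq_zero_iff_dvd _ 4).1
  push_cast at ha hb' ⊢
  rw [ha, hb']
  decide

lemma g1a_sixteen_dvd : (16 : ℤ) ∣ -(P.a ^ P.p) * P.b ^ P.p := by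
  have hp := P.hp5
  have hb : (2 : ℤ) ∣ P.b := (ZMod.intCast_zmod_eq_zero_iff_dvd P.b 2).1 P.hb2
  obtain ⟨k, hk⟩ := hb
  obtain ⟨j, hj⟩ : ∃ j, P.p = j + 4 := ⟨P.p - 4, by omega⟩
  have : -(P.a ^ P.p) * P.b ^ P.p = 16 * (-(P.a ^ P.p) * (2 ^ j * k ^ P.p)) := by
    rw [hk, hj]
    ring
  exact ⟨_, this⟩

lemma g1a_four_mul_a₂ : 4 * P.freyCurveInt.a₂ = P.b ^ P.p - 1 - P.a ^ P.p := by
  simp only [FreyPackage.freyCurveInt]
  exact Int.mul_ediv_cancel' (g1a_four_dvd P)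

lemma g1a_sixteen_mul_a₄ : 16 * P.freyCurveInt.a₄ = -(P.a ^ P.p) * P.b ^ P.p := by
  simp only [FreyPackage.freyCurveInt]
  exact Int.mul_ediv_cancel' (g1a_sixteen_dvd P)

/-- The Frey curve over `ℚ` is the base change of the integral Frey curve. -/
theorem g1a_freyCurve_eq_map : P.freyCurve = P.freyCurveInt.map (Int.castRingHom ℚ) := by
  have h4 := g1a_four_dvd P
  have h16 := g1a_sixteen_dvd P
  ext
  · simp [FreyPackage.freyCurve, FreyPackage.freyCurveInt, WeierstrassCurve.map]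
  · simp only [FreyPackage.freyCurve, FreyPackage.freyCurveInt, WeierstrassCurve.map,
      eq_intCast]
    rw [Int.cast_div h4 (by norm_num)]
    push_cast
    ring
  · simp [FreyPackage.freyCurve, FreyPackage.freyCurveInt, WeierstrassCurve.map]
  · simp only [FreyPackage.freyCurve, FreyPackage.freyCurveInt, WeierstrassCurve.map,
      eq_intCast]
    rw [Int.cast_div h16 (by norm_num)]
    push_cast
    ring
  · simp [FreyPackage.freyCurve, FreyPackage.freyCurveInt, WeierstrassCurve.map]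

theorem g1a_isIntegralModelOf : P.freyCurveInt.IsIntegralModelOf P.freyCurve :=
  ⟨1, by rw [one_smul, g1a_freyCurve_eq_map]⟩

/-- `c₄ = A² + AB + B²`. -/
theorem g1a_c₄ : P.freyCurveInt.c₄ =
    (P.a ^ P.p) ^ 2 + P.a ^ P.p * P.b ^ P.p + (P.b ^ P.p) ^ 2 := by
  have h2 := g1a_four_mul_a₂ P
  have h4 := g1a_sixteen_mul_a₄ P
  have e1 : P.freyCurveInt.a₁ = 1 := rfl
  have e3 : P.freyCurveInt.a₃ = 0 := rfl
  simp only [WeierstrassCurve.c₄, WeierstrassCurve.b₂, WeierstrassCurve.b₄, e1, e3]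
  linear_combination (1 + 4 * P.freyCurveInt.a₂ + P.b ^ P.p - P.a ^ P.p) * h2 - 3 * h4

/-- `2⁸ Δ = (abc)^{2p}`. -/
theorem g1a_Δ : 2 ^ 8 * P.freyCurveInt.Δ = (P.a * P.b * P.c) ^ (2 * P.p) := by
  have h2 := g1a_four_mul_a₂ P
  have h4 := g1a_sixteen_mul_a₄ P
  have e1 : P.freyCurveInt.a₁ = 1 := rfl
  have e3 : P.freyCurveInt.a₃ = 0 := rfl
  have e6 : P.freyCurveInt.a₆ = 0 := rfl
  have hb2 : P.freyCurveInt.b₂ = P.b ^ P.p - P.a ^ P.p := by
    simp only [WeierstrassCurve.b₂, e1]; linear_combination h2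
  have hΔ : P.freyCurveInt.Δ =
      P.freyCurveInt.a₄ ^ 2 * ((P.b ^ P.p - P.a ^ P.p) ^ 2 - 64 * P.freyCurveInt.a₄) := by
    simp only [WeierstrassCurve.Δ, WeierstrassCurve.b₄, WeierstrassCurve.b₆,
      WeierstrassCurve.b₈, hb2, e1, e3, e6]
    ring
  rw [hΔ, pow_mul', mul_pow, mul_pow, ← P.hFLT]
  linear_combination
    ((P.b ^ P.p - P.a ^ P.p) ^ 2 * (16 * P.freyCurveInt.a₄ - P.a ^ P.p * P.b ^ P.p)
      - 4 * ((16 * P.freyCurveInt.a₄) ^ 2 - 16 * P.freyCurveInt.a₄ * (P.a ^ P.p * P.b ^ P.p)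
        + (P.a ^ P.p * P.b ^ P.p) ^ 2)) * h4

theorem g1a_Δ_ne_zero : P.freyCurveInt.Δ ≠ 0 := by
  intro h
  have := g1a_Δ P
  rw [h, mul_zero] at this
  exact pow_ne_zero _ P.habc0 this.symm

/-- The integral Frey curve is semistable (at every prime). -/
theorem g1a_semistable (q : ℕ) (hq : q.Prime) (hΔ : (q : ℤ) ∣ P.freyCurveInt.Δ) :
    ¬ (q : ℤ) ∣ P.freyCurveInt.c₄ := by
  intro hc4
  have hq' : Prime (q : ℤ) := Nat.prime_iff_prime_int.mp hq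
  have hp0 : P.p ≠ 0 := P.hp0
  -- `q ∣ abc`
  have h1 : (q : ℤ) ∣ (P.a * P.b * P.c) ^ (2 * P.p) := by
    rw [← g1a_Δ]; exact dvd_mul_of_dvd_right hΔ _
  have h2 : (q : ℤ) ∣ P.a * P.b * P.c := hq'.dvd_of_dvd_pow h1
  rw [g1a_c₄] at hc4
  have hnot : ∀ x y : ℤ, gcd x y = 1 → (q : ℤ) ∣ x → (q : ℤ) ∣ y → False := by
    intro x y hxy hx hy
    have : (q : ℤ) ∣ gcd x y := dvd_gcd hx hy
    rw [hxy] at this
    exact hq'.not_dvd_one this
  have hab : (q : ℤ) ∣ P.a → (q : ℤ) ∣ P.b → False := hnot _ _ P.hgcdab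
  have hac : (q : ℤ) ∣ P.a → (q : ℤ) ∣ P.c → False := hnot _ _ P.hgcdac
  have hbc : (q : ℤ) ∣ P.b → (q : ℤ) ∣ P.c → False := hnot _ _ P.hgcdbc
  rcases hq'.dvd_or_dvd h2 with h3 | hc
  · rcases hq'.dvd_or_dvd h3 with ha | hb
    · -- `q ∣ a`, so `q ∣ B²`
      have hA : (q : ℤ) ∣ P.a ^ P.p := dvd_pow ha hp0
      have : (q : ℤ) ∣ (P.b ^ P.p) ^ 2 := by
        have e : (P.b ^ P.p) ^ 2 = ((P.a ^ P.p) ^ 2 + P.a ^ P.p * P.b ^ P.p + (P.b ^ P.p) ^ 2)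
            - P.a ^ P.p * (P.a ^ P.p + P.b ^ P.p) := by ring
        rw [e]
        exact dvd_sub hc4 (dvd_mul_of_dvd_left hA _)
      exact hab ha (hq'.dvd_of_dvd_pow (hq'.dvd_of_dvd_pow this))
    · have hB : (q : ℤ) ∣ P.b ^ P.p := dvd_pow hb hp0
      have : (q : ℤ) ∣ (P.a ^ P.p) ^ 2 := by
        have e : (P.a ^ P.p) ^ 2 = ((P.a ^ P.p) ^ 2 + P.a ^ P.p * P.b ^ P.p + (P.b ^ P.p) ^ 2)
            - P.b ^ P.p * (P.a ^ P.p + P.b ^ P.p) := by ring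
        rw [e]
        exact dvd_sub hc4 (dvd_mul_of_dvd_left hB _)
      exact hab (hq'.dvd_of_dvd_pow (hq'.dvd_of_dvd_pow this)) hb
  · -- `q ∣ c`, so `q ∣ A + B` and `q ∣ AB`
    have hC : (q : ℤ) ∣ P.a ^ P.p + P.b ^ P.p := by rw [P.hFLT]; exact dvd_pow hc hp0
    have : (q : ℤ) ∣ P.a ^ P.p * P.b ^ P.p := by
      have e : P.a ^ P.p * P.b ^ P.p = (P.a ^ P.p + P.b ^ P.p) * (P.a ^ P.p + P.b ^ P.p)
          - ((P.a ^ P.p) ^ 2 + P.a ^ P.p * P.b ^ P.p + (P.b ^ P.p) ^ 2) := by ring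
      rw [e]
      exact dvd_sub (dvd_mul_of_dvd_left hC _) hc4
    rcases hq'.dvd_or_dvd this with hA | hB
    · exact hac (hq'.dvd_of_dvd_pow hA) hc
    · exact hbc (hq'.dvd_of_dvd_pow hB) hc

lemma g1a_padicValInt_pow (q : ℕ) (hq : q.Prime) (n : ℕ) {x : ℤ} (hx : x ≠ 0) :
    padicValInt q (x ^ n) = n * padicValInt q x := by
  have : Fact q.Prime := ⟨hq⟩
  induction n with
  | zero => simp
  | succ n ih =>
    rw [pow_succ, padicValInt.mul (pow_ne_zero _ hx) hx, ih]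
    ring

/-- `v_q(Δ) = 2p · v_q(abc)` for every odd prime `q`. -/
theorem g1a_padicValInt_Δ (q : ℕ) (hq : q.Prime) (hq2 : q ≠ 2) :
    padicValInt q P.freyCurveInt.Δ = 2 * P.p * padicValInt q (P.a * P.b * P.c) := by
  have : Fact q.Prime := ⟨hq⟩
  have h := congrArg (padicValInt q) (g1a_Δ P)
  rw [padicValInt.mul (by norm_num) (g1a_Δ_ne_zero P), g1a_padicValInt_pow q hq _ P.habc0] at h
  have h0 : padicValInt q ((2 : ℤ) ^ 8) = 0 := by
    apply padicValInt.eq_zero_of_not_dvd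
    intro hd
    have hq' : Prime (q : ℤ) := Nat.prime_iff_prime_int.mp hq
    have h2 : (q : ℤ) ∣ 2 := hq'.dvd_of_dvd_pow hd
    have h3 : q ∣ 2 := by exact_mod_cast h2
    exact hq2 ((Nat.prime_dvd_prime_iff_eq hq Nat.prime_two).mp h3)
  rw [h0, zero_add] at h
  exact h

/-- The integral Frey curve is peu ramifié at `p` (and at every odd prime). -/
theorem g1a_peuRamifiee (q : ℕ) (hq : q.Prime) (hq2 : q ≠ 2) :
    (P.freyCurveInt.map (Int.castRingHom ℚ)).IsPeuRamifieeAt P.p q := by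
  unfold WeierstrassCurve.IsPeuRamifieeAt
  rw [WeierstrassCurve.map_Δ, eq_intCast, padicValRat.of_int, g1a_padicValInt_Δ P q hq hq2]
  push_cast
  exact ⟨2 * (padicValInt q (P.a * P.b * P.c) : ℤ), by ring⟩

/-- **G1a.**  `Spec.FreyModelAtPStatement`. -/
theorem freyModelAtP : Spec.FreyModelAtPStatement := by
  intro P _
  refine ⟨P.freyCurveInt, g1a_isIntegralModelOf P, g1a_Δ_ne_zero P,
    g1a_semistable P P.p P.pp, g1a_peuRamifiee P P.p P.pp ?_⟩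
  have := P.hp5
  omega

end Fermat.Agent.Ribet.H164
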